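import Fermat.Agent.S48.Defs

/-!
# S48 / W-1, W-2 : reduction maps `φ : ℤ̄ → 𝔽̄_ℓ` and the Teichmüller character
[key S48/W-1 `exists_phi` (~150 lines, Mathlib only); key S48/W-2 `exists_teich` (~300 lines, Mathlib only)]

* `exists_phi` : `(ℓ : ℤ̄)` is not a unit (`1/ℓ` is not integral: `IsIntegrallyClosed ℤ`/`IsIntegral.exists_int…` for the rational `1/ℓ`), so it lies in a maximal ideal `𝔪`; `κ = ℤ̄ ⧸ 𝔪` is a field of characteristic `ℓ`, so a `ZMod ℓ`-algebra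
  (`ZMod.algebra`/`ZMod.castHom`), algebraic over `ZMod ℓ` (every element is the image of an integral element: map its monic integer polynomial); `IsAlgClosed.lift : κ →ₐ[ZMod ℓ] AlgebraicClosure (ZMod ℓ)`.
* `exists_teich` : `ψ = ω̃⁻¹`.  `e = ℓ - 1`, `(e : k) ≠ 0`.  Let `ζ ∈ ℤ̄` be a primitive `e`-th root of unity; `φ ζ` is a primitive `e`-th root of unity of `k` (`X^e - 1 = ∏ (X - ζ^i)` maps to a separable polynomial), and the `e` elements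
  `(d : k)`, `d ∈ (ZMod ℓ)ˣ`, are roots of `X^e - 1` (Fermat, `ZMod.pow_card_sub_one_eq_one`), so `(d : k) = (φ ζ)^{i(d)}` with `i(d)` unique mod `e`.  `ω̃ d = ζ^{i(d)}` is multiplicative (uniqueness: `φ` is injective on `⟨ζ⟩`).
  Build the `MulChar` from the group hom `(ZMod ℓ)ˣ →* ℂˣ` (`MulChar.ofUnitHom`), `ψ = ω̃⁻¹`, `w d = ζ^{-i(d)}` (and `w 0 = 0`).  `ψ(-1)`: `φ(ω̃(-1)) = -1 = φ(-1)` and `-1 ∈ ⟨ζ⟩` (`e` even as `ℓ` is odd), so `ω̃(-1) = -1`.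
  (helper16's `S48/P/Teich.lean` contains related statements on `φ : μ_e(ℤ̄) → μ_e(k)`; reuse if convenient.)
-/

set_option autoImplicit false

noncomputable section

namespace Fermat.Agent.S48

theorem phiAux_not_isUnit (ℓ : ℕ) [Fact ℓ.Prime] : ¬ IsUnit ((ℓ : ℕ) : Zbar) := by
  have hℓ : ℓ.Prime := Fact.out
  rintro ⟨u, hu⟩
  have h1 : ((u⁻¹ : Zbarˣ) : Zbar) * (ℓ : Zbar) = 1 := by rw [← hu]; exact u.inv_mul
  have h2 : (((u⁻¹ : Zbarˣ) : Zbar) : ℂ) * (ℓ : ℂ) = 1 := by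
    have := congrArg (fun x : Zbar => (x : ℂ)) h1
    simpa using this
  have hℓC : (ℓ : ℂ) ≠ 0 := by exact_mod_cast hℓ.ne_zero
  have h3 : (((u⁻¹ : Zbarˣ) : Zbar) : ℂ) = algebraMap ℚ ℂ (1 / (ℓ : ℚ)) := by
    rw [map_div₀, map_one, map_natCast]
    field_simp
    exact h2
  have h4 : IsIntegral ℤ (algebraMap ℚ ℂ (1 / (ℓ : ℚ))) := h3 ▸ ((u⁻¹ : Zbarˣ) : Zbar).2
  rw [isIntegral_algebraMap_iff (algebraMap ℚ ℂ).injective] at h4
  obtain ⟨y, hy⟩ := IsIntegrallyClosed.isIntegral_iff.1 h4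
  have hℓQ : (ℓ : ℚ) ≠ 0 := by exact_mod_cast hℓ.ne_zero
  have h5 : (y : ℚ) * (ℓ : ℚ) = 1 := by
    have : (y : ℚ) = 1 / (ℓ : ℚ) := by simpa using hy
    rw [this]; field_simp
  have h6 : y * (ℓ : ℤ) = 1 := by exact_mod_cast h5
  have h7 : IsUnit (ℓ : ℤ) := IsUnit.of_mul_eq_one y (by rw [mul_comm]; exact h6)
  rw [Int.isUnit_iff] at h7
  have := hℓ.two_le
  omega

theorem exists_phi (ℓ : ℕ) [Fact ℓ.Prime] : Nonempty (Zbar →+* AlgebraicClosure (ZMod ℓ)) := by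
  have hℓ : ℓ.Prime := Fact.out
  have hne : Ideal.span {((ℓ : ℕ) : Zbar)} ≠ ⊤ := by
    rw [Ne, Ideal.span_singleton_eq_top]
    exact phiAux_not_isUnit ℓ
  obtain ⟨m, hm, hle⟩ := Ideal.exists_le_maximal _ hne
  letI : Field (Zbar ⧸ m) := Ideal.Quotient.field m
  have h0 : ((ℓ : ℕ) : Zbar ⧸ m) = 0 := by
    have : Ideal.Quotient.mk m ((ℓ : ℕ) : Zbar) = 0 :=
      Ideal.Quotient.eq_zero_iff_mem.2 (hle (Ideal.mem_span_singleton_self _))
    simpa using this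
  haveI : CharP (Zbar ⧸ m) ℓ := (CharP.charP_iff_prime_eq_zero hℓ).2 h0
  letI : Algebra (ZMod ℓ) (Zbar ⧸ m) := ZMod.algebra _ ℓ
  haveI : Algebra.IsAlgebraic (ZMod ℓ) (Zbar ⧸ m) := by
    refine ⟨fun x => ?_⟩
    obtain ⟨z, rfl⟩ := Ideal.Quotient.mk_surjective x
    have h1 : IsIntegral ℤ z := Algebra.IsIntegral.isIntegral z
    have h2 : IsIntegral ℤ (Ideal.Quotient.mk m z) := h1.map (Ideal.Quotient.mkₐ ℤ m)
    exact (h2.tower_top (A := ZMod ℓ)).isAlgebraic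
  exact ⟨((IsAlgClosed.lift : (Zbar ⧸ m) →ₐ[ZMod ℓ] AlgebraicClosure (ZMod ℓ)) : (Zbar ⧸ m) →+* _).comp
    (Ideal.Quotient.mk m)⟩

open Polynomial in
/-- `φ` maps onto the `e`-th roots of unity of `k` when `e` is invertible in `k` -/
theorem teichAux_exists_root {k : Type} [Field k] (φ : Zbar →+* k) {e : ℕ} (he : (e : k) ≠ 0)
    {x : k} (hx : x ^ e = 1) : ∃ ξ : Zbar, ξ ^ e = 1 ∧ φ ξ = x := by
  have he0 : e ≠ 0 := by rintro rfl; simp at he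
  have : NeZero e := ⟨he0⟩
  have : NeZero ((e : ℕ) : k) := ⟨he⟩
  have h0 := Complex.isPrimitiveRoot_exp e he0
  obtain ⟨ζ, hζ⟩ : ∃ ζ : Zbar, IsPrimitiveRoot ζ e :=
    ⟨⟨_, h0.isIntegral (Nat.pos_of_ne_zero he0)⟩, IsPrimitiveRoot.coe_submonoidClass_iff.1 h0⟩
  have h1 : (cyclotomic e k).IsRoot (φ ζ) := by
    have h2 := hζ.isRoot_cyclotomic (Nat.pos_of_ne_zero he0)
    rw [IsRoot, ← map_cyclotomic e φ, eval_map, eval₂_hom, h2, map_zero]
  have h3 : IsPrimitiveRoot (φ ζ) e := isRoot_cyclotomic_iff.1 h1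
  obtain ⟨i, -, hi⟩ := h3.eq_pow_of_pow_eq_one hx
  refine ⟨ζ ^ i, ?_, by rw [map_pow, hi]⟩
  rw [← pow_mul, mul_comm, pow_mul, hζ.pow_eq_one, one_pow]

/-- the inverse of the Teichmüller character with respect to `φ` -/
theorem exists_teich (ℓ : ℕ) [Fact ℓ.Prime] (hℓ : ℓ ≠ 2) {k : Type} [Field k] [CharP k ℓ] (φ : Zbar →+* k) :
    ∃ (ψ : DirichletCharacter ℂ ℓ) (w : ZMod ℓ → Zbar), ψ (-1) = -1 ∧ (∀ d, (w d : ℂ) = ψ d) ∧
      ∀ d : ℕ, ¬ ℓ ∣ d → φ (w (d : ZMod ℓ)) * (d : k) = 1 := by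
  classical
  have hp : ℓ.Prime := Fact.out
  obtain ⟨e, he⟩ : ∃ e : ℕ, e = ℓ - 1 := ⟨_, rfl⟩
  have he1 : e + 1 = ℓ := by have := hp.two_le; omega
  have he0 : e ≠ 0 := by have := hp.two_le; omega
  have hek : (e : k) ≠ 0 := by
    intro h
    have h1 : ((e + 1 : ℕ) : k) = 0 := by rw [he1]; exact CharP.cast_eq_zero k ℓ
    rw [Nat.cast_add, h, zero_add, Nat.cast_one] at h1
    exact one_ne_zero h1
  let c : (ZMod ℓ)ˣ →* kˣ := Units.map (ZMod.castHom (dvd_refl ℓ) k : ZMod ℓ →* k)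
  obtain ⟨g, hg⟩ := IsCyclic.exists_generator (α := (ZMod ℓ)ˣ)
  have hord : orderOf g = e := by
    rw [orderOf_eq_card_of_forall_mem_zpowers hg, Nat.card_eq_fintype_card, ZMod.card_units, he]
  have hge : g ^ e = 1 := by rw [← hord]; exact pow_orderOf_eq_one g
  have hx : (((c g)⁻¹ : kˣ) : k) ^ e = 1 := by
    rw [← Units.val_pow_eq_pow_val, inv_pow, ← map_pow, hge, map_one, inv_one, Units.val_one]
  obtain ⟨ξ, hξe, hξ⟩ := teichAux_exists_root φ hek hx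
  let ξu : Zbarˣ := Units.ofPowEqOne ξ e hξe he0
  have hξu : orderOf ξu ∣ orderOf g := by
    rw [hord]
    refine orderOf_dvd_of_pow_eq_one ?_
    exact Units.ext (by rw [Units.val_pow_eq_pow_val]; exact hξe)
  let ψ₀ : (ZMod ℓ)ˣ →* Zbarˣ := monoidHomOfForallMemZpowers hg hξu
  have hψg : ψ₀ g = ξu := monoidHomOfForallMemZpowers_apply_gen hg hξu
  have hmain : ∀ d : (ZMod ℓ)ˣ, Units.map (φ : Zbar →* k) (ψ₀ d) * c d = 1 := by
    intro d
    obtain ⟨n, rfl⟩ := Subgroup.mem_zpowers_iff.1 (hg d)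
    rw [map_zpow, map_zpow, map_zpow, ← mul_zpow, hψg]
    have : Units.map (φ : Zbar →* k) ξu * c g = 1 := by
      have h1 : Units.map (φ : Zbar →* k) ξu = (c g)⁻¹ := Units.ext hξ
      rw [h1, inv_mul_cancel]
    rw [this, one_zpow]
  have hmain' : ∀ d : (ZMod ℓ)ˣ, φ (ψ₀ d : Zbar) * (ZMod.castHom (dvd_refl ℓ) k (d : ZMod ℓ)) = 1 := by
    intro d
    have := congrArg Units.val (hmain d)
    exact this
  let ι : Zbarˣ →* ℂˣ := Units.map ((algebraMap Zbar ℂ : Zbar →+* ℂ) : Zbar →* ℂ)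
  refine ⟨MulChar.ofUnitHom (ι.comp ψ₀), fun d => if h : IsUnit d then (ψ₀ h.unit : Zbar) else 0,
    ?_, ?_, ?_⟩
  · have h1 : ((-1 : (ZMod ℓ)ˣ) : ZMod ℓ) = -1 := by simp
    rw [← h1, MulChar.ofUnitHom_coe]
    have h2 : (ψ₀ (-1) : Zbar) ^ 2 = 1 := by
      rw [← Units.val_pow_eq_pow_val, ← map_pow]
      simp
    have h3 : (ψ₀ (-1) : Zbar) = 1 ∨ (ψ₀ (-1) : Zbar) = -1 := by
      have : (ψ₀ (-1) : Zbar) ^ 2 = 1 ^ 2 := by rw [h2, one_pow]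
      exact sq_eq_sq_iff_eq_or_eq_neg.1 this
    rcases h3 with h3 | h3
    · exfalso
      have h4 := hmain' (-1)
      rw [h3, map_one, one_mul, h1, map_neg, map_one] at h4
      have h5 : ((2 : ℕ) : k) = 0 := by
        have : (1 : k) + 1 = 0 := by nth_rewrite 1 [← h4]; ring
        rw [Nat.cast_ofNat, ← one_add_one_eq_two]; exact this
      have h6 := (CharP.cast_eq_zero_iff k ℓ 2).1 h5
      exact hℓ ((Nat.prime_dvd_prime_iff_eq hp Nat.prime_two).1 h6)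
    · change algebraMap Zbar ℂ (ψ₀ (-1) : Zbar) = -1
      rw [h3, map_neg, map_one]
  · intro d
    beta_reduce
    by_cases h : IsUnit d
    · rw [dif_pos h]
      conv_rhs => rw [← h.unit_spec, MulChar.ofUnitHom_coe]
      rfl
    · rw [dif_neg h, MulChar.map_nonunit _ h]
      rfl
  · intro d hd
    have h : IsUnit (d : ZMod ℓ) := by
      rw [isUnit_iff_ne_zero, Ne, ZMod.natCast_eq_zero_iff]
      exact hd
    beta_reduce
    rw [dif_pos h]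
    have := hmain' h.unit
    rwa [h.unit_spec, map_natCast] at this

end Fermat.Agent.S48
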