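import Fermat.Agent.S48.IF.Z
import Fermat.Agent.S48.H.Basic
import Fermat.Agent.S24.Quot

/-!
# S48 / W-3 : `f(r τ)` and the form `E* = q + …`
[key S48/W-3a `IsNeb.scale` (~200 lines), key S48/W-3b `exists_Estar'` (~150 lines)]

* `IsNeb.scale` : model = `S24.raiseLevel` (`S24/Quot.lean`).  `f ∘ scaleH r = r^(1-k) • (f ∣[k] heckeDiagMatrix r)` (`slash_heckeDiagMatrix_apply`, `heckeDiagMatrix_smul`).  For `γ ∈ Γ₀(N r)`: `IntStruct.exists_comm` gives `g'` with
  `heckeDiagMatrix r * γ = g' * heckeDiagMatrix r`, `g' = [[a, r b],[c/r, d]] ∈ Γ₀(N)` with the SAME lower right entry (look at the statement/proof of `exists_comm`; if it does not give the entries, redo the 10 line computation).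
  Boundedness of `(f ∘ scaleH r) ∣ g`, `g ∈ SL(2,ℤ)`: `IntStruct.exists_factor`: `heckeDiagMatrix r * g = g' * (upper triangular)`, `f ∣ g'` is bounded at `i∞` (`IsNeb.bdd`), `IsBoundedAtImInfty.slash`.  `IsQ`: `IsQ.scale`.
* `exists_Estar'` : `E` from `exists_Epsi`, `r = 2`, `E* = E - E ∘ scaleH 2`; coefficients by `coeffFun_add/smul`, `S24.qExpansion_scale_coeff`: `E*_0 = 0`, `E*_1 = ψ 1 = 1`, `E*_n = ∑_{d∣n} ψ d - [2 ∣ n] ∑_{d ∣ n/2} ψ d` integral
  (values of a Dirichlet character are `0` or roots of unity: `IsIntegral`; `MulChar` of a finite group, `ψ d ^ φ(N) = 1`).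
-/

set_option autoImplicit false

open UpperHalfPlane ModularForm ModularFormClass CongruenceSubgroup Fermat.Agent.S24 Fermat.Agent.S29
open scoped MatrixGroups Manifold

noncomputable section

namespace Fermat.Agent.S48

open Matrix.SpecialLinearGroup in
theorem scaleAux_comm {r : ℕ} (hr : r ≠ 0) (g : SL(2, ℤ)) (e : ℤ) (he : g 1 0 = r * e) :
    ∃ g' : SL(2, ℤ), heckeDiagMatrix r * mapGL ℝ g = mapGL ℝ g' * heckeDiagMatrix r ∧
      g' 1 0 = e ∧ g' 1 1 = g 1 1 := by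
  have hdet := IntStruct.det_eq_SL2 g
  refine ⟨⟨!![g 0 0, r * g 0 1; e, g 1 1], ?_⟩, ?_, rfl, rfl⟩
  · rw [Matrix.det_fin_two_of]
    linear_combination hdet + (g 0 1) * he
  · ext i j
    fin_cases i <;> fin_cases j <;>
      simp [hr, Matrix.mul_apply, Fin.sum_univ_two]
    · ring
    · have := congrArg (Int.cast : ℤ → ℝ) he; push_cast at this; linear_combination this

theorem scaleAux_eq {k : ℤ} (f : ℍ → ℂ) (r : ℕ) [NeZero r] :
    f ∘ scaleH r = ((r : ℂ) ^ (k - 1))⁻¹ • (f ∣[k] heckeDiagMatrix r) := by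
  have hrC : ((r : ℂ) ^ (k - 1)) ≠ 0 := zpow_ne_zero _ (by exact_mod_cast NeZero.ne r)
  funext τ
  rw [Pi.smul_apply, slash_heckeDiagMatrix_apply k (NeZero.ne r), heckeDiagMatrix_smul, smul_eq_mul,
    inv_mul_cancel_left₀ hrC]
  rfl

open Matrix.SpecialLinearGroup in
theorem IsNeb.scale {N : ℕ} [NeZero N] {k : ℤ} {χ : ℤ → ℂ} {f : ℍ → ℂ} (hf : IsNeb N k χ f)
    (r : ℕ) [NeZero r] : IsNeb (N * r) k χ (f ∘ scaleH r) := by
  have hr0 : r ≠ 0 := NeZero.ne r
  refine ⟨hf.isQ.scale r, ?_, ?_⟩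
  · intro γ hγ
    have hg2 := CongruenceSubgroup.Gamma0_mem.mp hγ
    obtain ⟨c, hc⟩ : ((N * r : ℕ) : ℤ) ∣ γ 1 0 := (ZMod.intCast_zmod_eq_zero_iff_dvd _ _).mp hg2
    obtain ⟨g', hg', h10, h11⟩ := scaleAux_comm hr0 γ (N * c) (by rw [hc]; push_cast; ring)
    have hg'mem : g' ∈ Gamma0 N := by
      rw [CongruenceSubgroup.Gamma0_mem, h10]
      simp
    have h1 := hf.slash g' hg'mem
    rw [scaleAux_eq (k := k) f r, SL_smul_slash, smul_comm]
    congr 1
    rw [ModularForm.SL_slash]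
    change (f ∣[k] heckeDiagMatrix r) ∣[k] (mapGL ℝ γ) = _
    rw [← SlashAction.slash_mul, hg', SlashAction.slash_mul]
    have h2 : f ∣[k] (mapGL ℝ g') = χ (g' 1 1) • f := by
      rw [← h1, ModularForm.SL_slash]
      rfl
    rw [h2, h11]
    funext τ
    rw [Pi.smul_apply, slash_heckeDiagMatrix_apply k hr0, slash_heckeDiagMatrix_apply k hr0,
      Pi.smul_apply, smul_eq_mul, smul_eq_mul]
    ring
  · intro g
    obtain ⟨g', a, b, e, had, -, -, -, -, h⟩ := IntStruct.exists_factor hr0 g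
    rw [scaleAux_eq (k := k) f r, SL_smul_slash]
    refine Filter.BoundedAtFilter.smul _ ?_
    rw [ModularForm.SL_slash]
    change IsBoundedAtImInfty ((f ∣[k] heckeDiagMatrix r) ∣[k] (mapGL ℝ g))
    rw [← SlashAction.slash_mul, h, SlashAction.slash_mul]
    refine IsBoundedAtImInfty.slash k (by simp) ?_
    have := hf.bdd g'
    rw [ModularForm.SL_slash] at this
    exact this

theorem isIntegral_dirichlet {N : ℕ} [NeZero N] (ψ : DirichletCharacter ℂ N) (d : ZMod N) :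
    IsIntegral ℤ (ψ d) := by
  by_cases hd : IsUnit d
  · have hφ : 0 < N.totient := Nat.totient_pos.2 (Nat.pos_of_ne_zero (NeZero.ne N))
    refine IsIntegral.of_pow hφ ?_
    obtain ⟨u, rfl⟩ := hd
    rw [← map_pow, ← Units.val_pow_eq_pow_val, ← ZMod.card_units_eq_totient, pow_card_eq_one]
    simpa using isIntegral_one
  · rw [MulChar.map_nonunit _ hd]
    exact isIntegral_zero

theorem exists_Estar' (N : ℕ) [NeZero N] (ψ : DirichletCharacter ℂ N) (hψ : ψ (-1) = -1) :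
    ∃ (r : ℕ) (E : ℍ → ℂ), 1 < r ∧ IsNeb (N * r) 1 (etaOf ψ) E ∧ coeffFun E 0 = 0 ∧ coeffFun E 1 = 1 ∧
      ∀ n, IsIntegral ℤ (coeffFun E n) := by
  obtain ⟨E, hE, -, hEn⟩ := exists_Epsi N ψ hψ
  have h2 : IsNeb (N * 2) 1 (etaOf ψ) (E ∘ scaleH 2) := hE.scale 2
  have hc : ∀ n, coeffFun (E + (-1 : ℂ) • (E ∘ scaleH 2)) n =
      coeffFun E n - (if 2 ∣ n then coeffFun E (n / 2) else 0) := by
    intro n
    rw [coeffFun_add hE.isQ (h2.isQ.smul (-1)), coeffFun_smul (-1) h2.isQ, Pi.add_apply,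
      Pi.smul_apply]
    have : coeffFun (E ∘ scaleH 2) n = if 2 ∣ n then coeffFun E (n / 2) else 0 :=
      qExpansion_scale_coeff hE.isQ 2 n
    rw [this, smul_eq_mul]
    ring
  have hint : ∀ n, 0 < n → IsIntegral ℤ (coeffFun E n) := by
    intro n hn
    rw [hEn n hn]
    exact IsIntegral.sum _ fun d _ => isIntegral_dirichlet ψ _
  refine ⟨2, E + (-1 : ℂ) • (E ∘ scaleH 2), by norm_num,
    (hE.mono (dvd_mul_right N 2)).add (h2.smul (-1)), ?_, ?_, ?_⟩
  · rw [hc 0]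
    simp
  · rw [hc 1, if_neg (by norm_num), sub_zero, hEn 1 one_pos]
    simp
  · intro n
    rw [hc n]
    rcases Nat.eq_zero_or_pos n with rfl | hn
    · simpa using isIntegral_zero
    · refine (hint n hn).sub ?_
      by_cases h : 2 ∣ n
      · rw [if_pos h]
        exact hint _ (Nat.div_pos (Nat.le_of_dvd hn h) (by norm_num))
      · rw [if_neg h]
        exact isIntegral_zero

end Fermat.Agent.S48
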