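import Fermat.Agent.S48.A.Defs
import Fermat.Agent.S48.IF.M
import Fermat.Agent.S48.W.Phi
import Fermat.Agent.S48.W.Scale

/-!
# S48 / W-4 : the residual representations (R) from layer M, the Eisenstein series `E_ψ` and the integral form `D f'`
[key S48/W-4, ~500 lines; from the stubs `exists_residual`, `exists_Epsi`, `exists_phi`, `exists_teich`, `IsNebC.mono/mul/smul`, `IsNeb.mono/smul`]

DATA: `f'` weight one, nebentypus `ε`, `a' = coeffFun f'`, `a' 1 = 1`, `HeckeRel N a' ε`, `a' p` integral for `p ∤ N`, `D a' n` integral for all `n`, `D ≠ 0`.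
`ℓ₀ = max (max N D) 2`.  Let `ℓ > ℓ₀` be prime: `ℓ ∤ N`, `ℓ ∤ D`, `ℓ ≠ 2`.  `k = AlgebraicClosure (ZMod ℓ)`, `φ` from `exists_phi`, `ψ, w` from `exists_teich`, `E` from `exists_Epsi ℓ ψ`.
* `A' := (-2ℓ) • E` : `IsNeb ℓ 1 (etaOf ψ) A'`, coefficients `A'_0 = S := ∑_{a<ℓ} a ψ(a)`, `A'_n = -2ℓ ∑_{d∣n} ψ d` (`n ≥ 1`): all in `ℤ̄`; `φ(A'_n) = 0` for `n ≥ 1` (`φ ℓ = 0`), and
  `φ(S) = ∑_{0<a<ℓ} a φ(w a) = ∑_{0<a<ℓ} 1 = ℓ - 1 = -1`.
* `g := (D • f') * A'` : `IsNebC (N ℓ) 2 χ g` with `χ d = etaOf ε d * etaOf ψ d` (`IsNebC.mono`, `IsNeb.mono`, `IsNebC.mul`).  `x d := ⟨ε d, _⟩ * w d`.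
  coefficients `c_n = ∑_{i+j=n} (D a'_i) A'_j ∈ ℤ̄` (`qExpansion_mul`, `PowerSeries.coeff_mul`), `φ(c_n) = φ(u_n) φ(S) = -φ(u_n)`, `u_n := D a'_n ∈ ℤ̄`.  `φ(c_1) = -φ(D) ≠ 0` (`ℓ ∤ D`, `CharP k ℓ`).
* `b p := φ(α_p)`, `α_p ∈ ℤ̄` with `α_p = a' p` (for primes `p ∤ N`; `0` otherwise).  For `p ∤ N ℓ`: `u_{pn} + ε(p) [p∣n] u_{n/p} = α_p u_n` in `ℤ̄` (multiply `HeckeRel` by `D`; injectivity of `ℤ̄ → ℂ`), and
  `φ(x p) p = φ(ε p) φ(w p) p = φ(ε p)`.  This is hypothesis `hb` of `exists_residual`.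
* output: `r` with `tr r(Frob_p) = φ(α_p)`, `det = φ(x p) p = φ(ε p)` for `p ∤ (N ℓ) ℓ`, i.e. `p ∤ N ℓ`.  `Res.tr`/`Res.det` quantify over all `x : ℤ̄` with `(x : ℂ) = a p`: unique by `Subtype.ext`.
-/

set_option autoImplicit false

open UpperHalfPlane ModularForm ModularFormClass CongruenceSubgroup Fermat.Agent.S24 Fermat.Agent.S29
open scoped MatrixGroups Manifold

noncomputable section

namespace Fermat.Agent.S48

theorem resAux_coeff_mul {f g : ℍ → ℂ} (hf : IsQ f) (hg : IsQ g) (n : ℕ) :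
    coeffFun (f * g) n = ∑ ij ∈ Finset.HasAntidiagonal.antidiagonal n, coeffFun f ij.1 * coeffFun g ij.2 := by
  change (qExpansion 1 (f * g)).coeff n = _
  rw [qExpansion_mul hf.analytic hg.analytic, PowerSeries.coeff_mul]
  rfl

/-- `∑_{a<ℓ} a φ(w a) = -1` -/
theorem resAux_sum {ℓ : ℕ} (hℓ : ℓ.Prime) {k : Type} [Field k] [CharP k ℓ] (φ : Zbar →+* k)
    (w : ZMod ℓ → Zbar) (hw : ∀ d : ℕ, ¬ ℓ ∣ d → φ (w (d : ZMod ℓ)) * (d : k) = 1) :
    φ (∑ a ∈ Finset.range ℓ, (a : Zbar) * w (a : ZMod ℓ)) = -1 := by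
  rw [map_sum]
  have h1 : ∀ a ∈ Finset.range ℓ, φ ((a : Zbar) * w (a : ZMod ℓ)) = if a = 0 then 0 else 1 := by
    intro a ha
    rw [Finset.mem_range] at ha
    by_cases h0 : a = 0
    · rw [if_pos h0, h0]; simp
    · rw [if_neg h0, map_mul, map_natCast, mul_comm]
      exact hw a (fun h => absurd (Nat.le_of_dvd (Nat.pos_of_ne_zero h0) h) (not_le.2 ha))
  rw [Finset.sum_congr rfl h1, Finset.sum_ite, Finset.sum_const_zero, zero_add, Finset.sum_const,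
    nsmul_eq_mul, mul_one]
  have h2 : (Finset.range ℓ).filter (fun a => ¬ a = 0) = (Finset.range ℓ).erase 0 := by
    ext a; simp [and_comm]
  rw [h2, Finset.card_erase_of_mem (Finset.mem_range.2 hℓ.pos), Finset.card_range,
    Nat.cast_sub hℓ.one_le, CharP.cast_eq_zero k ℓ]
  simp

theorem exists_res_of {N : ℕ} [NeZero N] (ε : DirichletCharacter ℂ N) {f' : ℍ → ℂ}
    (hf : IsNebC N 1 (etaOf ε) f') (h1 : coeffFun f' 1 = 1)
    (hT : HeckeRel N (coeffFun f') (fun p => ε (p : ZMod N)))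
    (hint : ∀ p : ℕ, p.Prime → ¬ p ∣ N → IsIntegral ℤ (coeffFun f' p))
    (D : ℕ) (hD : D ≠ 0) (hDint : ∀ n, IsIntegral ℤ ((D : ℂ) * coeffFun f' n))
    (a : ℕ → ℂ) (ha : ∀ p : ℕ, p.Prime → ¬ p ∣ N → a p = coeffFun f' p) :
    ∃ ℓ₀ : ℕ, ∀ ℓ : ℕ, ℓ.Prime → ℓ₀ < ℓ → HasRes N ε a ℓ := by
  classical
  refine ⟨max (max N D) 2, fun ℓ hℓ hlt => ?_⟩
  have hNℓ : N < ℓ := lt_of_le_of_lt ((le_max_left N D).trans (le_max_left _ _)) hlt
  have hDℓ : D < ℓ := lt_of_le_of_lt ((le_max_right N D).trans (le_max_left _ _)) hlt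
  have h2ℓ : 2 < ℓ := lt_of_le_of_lt (le_max_right _ _) hlt
  have hN0 : N ≠ 0 := NeZero.ne N
  have hℓD : ¬ ℓ ∣ D := fun h => absurd (Nat.le_of_dvd (Nat.pos_of_ne_zero hD) h) (not_le.2 hDℓ)
  have : Fact ℓ.Prime := ⟨hℓ⟩
  have : NeZero (N * ℓ) := ⟨mul_ne_zero hN0 hℓ.ne_zero⟩
  have hchar : CharP (AlgebraicClosure (ZMod ℓ)) ℓ :=
    charP_of_injective_algebraMap (algebraMap (ZMod ℓ) (AlgebraicClosure (ZMod ℓ))).injective ℓ
  obtain ⟨φ⟩ := exists_phi ℓ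
  obtain ⟨ψ, w, hψ1, hw, hφw⟩ := exists_teich ℓ h2ℓ.ne' φ
  obtain ⟨E, hE, hE0, hEn⟩ := exists_Epsi ℓ ψ hψ1
  -- the Eisenstein series `A'`
  have hA' : IsNeb ℓ 1 (etaOf ψ) ((-(2 * ℓ) : ℂ) • E) := hE.smul _
  have hA'c : ∀ n, coeffFun ((-(2 * ℓ) : ℂ) • E) n = -(2 * ℓ) * coeffFun E n := by
    intro n
    rw [coeffFun_smul _ hE.isQ]
    rfl
  obtain ⟨t, ht⟩ : ∃ t : ℕ → Zbar, ∀ n, t n = if n = 0 then
      ∑ a ∈ Finset.range ℓ, (a : Zbar) * w ((a : ℕ) : ZMod ℓ) else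
      (-(2 * ℓ) : Zbar) * ∑ d ∈ n.divisors, w ((d : ℕ) : ZMod ℓ) := ⟨_, fun _ => rfl⟩
  have htc : ∀ n, (t n : ℂ) = coeffFun ((-(2 * ℓ) : ℂ) • E) n := by
    intro n
    rw [hA'c, ht]
    by_cases hn : n = 0
    · rw [if_pos hn, hn, neg_mul, hE0, neg_neg]
      change Zbar.val _ = _
      rw [map_sum]
      refine Finset.sum_congr rfl fun a _ => ?_
      rw [map_mul, map_natCast]
      congr 1
      exact hw _
    · rw [if_neg hn, hEn n (Nat.pos_of_ne_zero hn)]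
      push_cast
      congr 1
      exact Finset.sum_congr rfl fun d _ => hw _
  have hφt0 : φ (t 0) = -1 := by
    rw [ht, if_pos rfl]
    exact resAux_sum hℓ φ w hφw
  have hφtn : ∀ n, n ≠ 0 → φ (t n) = 0 := by
    intro n hn
    rw [ht, if_neg hn, map_mul, map_neg, map_mul, map_natCast, CharP.cast_eq_zero, mul_zero, neg_zero,
      zero_mul]
  -- the form `g`
  obtain ⟨u, hu⟩ : ∃ u : ℕ → Zbar, ∀ n, (u n : ℂ) = (D : ℂ) * coeffFun f' n :=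
    ⟨fun n => ⟨_, hDint n⟩, fun n => rfl⟩
  have hDf : IsNebC N 1 (etaOf ε) ((D : ℂ) • f') := hf.smul _
  have hDfc : ∀ n, coeffFun ((D : ℂ) • f') n = (u n : ℂ) := by
    intro n
    rw [coeffFun_smul _ hf.isQ, hu]
    rfl
  have hg : IsNebC (N * ℓ) 2 (fun d => etaOf ε d * etaOf ψ d)
      (((D : ℂ) • f') * ((-(2 * ℓ) : ℂ) • E)) := by
    have := (hDf.mono (dvd_mul_right N ℓ)).mul (hA'.mono (dvd_mul_left ℓ N))
    have e : (1 : ℤ) + 1 = 2 := by norm_num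
    rwa [e] at this
  obtain ⟨c, hc⟩ : ∃ c : ℕ → Zbar, ∀ n, c n =
      ∑ ij ∈ Finset.HasAntidiagonal.antidiagonal n, u ij.1 * t ij.2 := ⟨_, fun _ => rfl⟩
  have hcc : ∀ n, (c n : ℂ) = coeffFun (((D : ℂ) • f') * ((-(2 * ℓ) : ℂ) • E)) n := by
    intro n
    rw [resAux_coeff_mul hDf.isQ hA'.isQ, hc]
    change Zbar.val _ = _
    rw [map_sum]
    refine Finset.sum_congr rfl fun ij _ => ?_
    rw [map_mul, hDfc, ← htc]
    rfl
  have hφc : ∀ n, φ (c n) = - φ (u n) := by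
    intro n
    rw [hc, map_sum, Finset.sum_eq_single (n, 0)]
    · rw [map_mul, hφt0, mul_neg, mul_one]
    · rintro ⟨i, j⟩ hij hne
      have hj : j ≠ 0 := by
        rintro rfl
        rw [Finset.HasAntidiagonal.mem_antidiagonal] at hij
        simp only [add_zero] at hij
        exact hne (by rw [hij])
      rw [map_mul, hφtn j hj, mul_zero]
    · intro h
      exact absurd (Finset.HasAntidiagonal.mem_antidiagonal.2 (by simp)) h
  have hu1 : u 1 = (D : Zbar) := by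
    apply Subtype.ext
    rw [hu, h1, mul_one]
    simp
  have hφc1 : φ (c 1) ≠ 0 := by
    rw [hφc, hu1, map_natCast, neg_ne_zero, Ne, CharP.cast_eq_zero_iff _ ℓ]
    exact hℓD
  obtain ⟨ee, hee⟩ : ∃ ee : ZMod N → Zbar, ∀ d, (ee d : ℂ) = ε d :=
    ⟨fun d => ⟨_, isIntegral_dirichlet ε d⟩, fun d => rfl⟩
  obtain ⟨x, hx⟩ : ∃ x : ℤ → Zbar, ∀ d : ℤ, x d = ee ((d : ℤ) : ZMod N) * w ((d : ℤ) : ZMod ℓ) :=
    ⟨_, fun _ => rfl⟩
  have hxc : ∀ d, (x d : ℂ) = etaOf ε d * etaOf ψ d := by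
    intro d
    rw [hx, Subalgebra.coe_mul, hee, hw]
    rfl
  have hal' : ∀ p : ℕ, ∃ y : Zbar, p.Prime → ¬ p ∣ N → (y : ℂ) = coeffFun f' p := by
    intro p
    by_cases h : p.Prime ∧ ¬ p ∣ N
    · exact ⟨⟨_, hint p h.1 h.2⟩, fun _ _ => rfl⟩
    · exact ⟨0, fun h1 h2 => absurd ⟨h1, h2⟩ h⟩
  choose al hal using hal'
  have hpN : ∀ p : ℕ, ¬ p ∣ N * ℓ → ¬ p ∣ N := fun p h h' => h (h'.mul_right ℓ)
  have hpℓ : ∀ p : ℕ, p.Prime → ¬ p ∣ N * ℓ → ¬ ℓ ∣ p := by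
    intro p hp h h'
    have : ℓ = p := (Nat.prime_dvd_prime_iff_eq hℓ hp).1 h'
    exact h (this ▸ dvd_mul_left ℓ N)
  have hφx : ∀ p : ℕ, p.Prime → ¬ p ∣ N * ℓ →
      φ (x (p : ℤ)) * (p : AlgebraicClosure (ZMod ℓ)) = φ (ee (p : ZMod N)) := by
    intro p hp h
    rw [hx]
    simp only [Int.cast_natCast]
    rw [map_mul, mul_assoc, hφw p (hpℓ p hp h), mul_one]
  have hrel : ∀ p : ℕ, p.Prime → ¬ p ∣ N → ∀ n : ℕ,
      u (p * n) + ee (p : ZMod N) * (if p ∣ n then u (n / p) else 0) = al p * u n := by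
    intro p hp h n
    apply Subtype.ext
    have h3 := hT p hp h n
    by_cases hpn : p ∣ n
    · rw [if_pos hpn] at h3 ⊢
      simp only [Subalgebra.coe_add, Subalgebra.coe_mul]
      rw [hu, hu, hu, hee, hal p hp h]
      linear_combination (D : ℂ) * h3
    · rw [if_neg hpn] at h3 ⊢
      simp only [Subalgebra.coe_add, Subalgebra.coe_mul, ZeroMemClass.coe_zero]
      rw [hu, hu, hee, hal p hp h]
      linear_combination (D : ℂ) * h3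
  obtain ⟨r, hfin, hr⟩ := exists_residual (N * ℓ) ℓ hℓ φ _ _ hg c hcc hφc1 x hxc (fun p => φ (al p)) (by
    intro p hp h n
    rw [hφx p hp h]
    simp only [hφc]
    have h4 := congrArg φ (hrel p hp (hpN p h) n)
    rw [map_add, map_mul, map_mul] at h4
    by_cases hpn : p ∣ n
    · rw [if_pos hpn] at h4 ⊢
      linear_combination -h4
    · rw [if_neg hpn] at h4 ⊢
      rw [map_zero] at h4
      linear_combination -h4)
  have hpp : ∀ p : ℕ, p.Prime → ¬ p ∣ N * ℓ → ¬ p ∣ N * ℓ * ℓ := by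
    intro p hp h h'
    rcases (Nat.Prime.dvd_mul hp).1 h' with h'' | h''
    · exact h h''
    · exact h (h''.mul_left N)
  refine ⟨AlgebraicClosure (ZMod ℓ), inferInstance, inferInstance, hchar, φ, r, hfin, ?_, ?_, ?_⟩
  · intro p hp h A hA σ hσ
    exact (hr p hp (hpp p hp h) A hA).1 σ hσ
  · intro p hp h A hA σ hσ y hy
    rw [((hr p hp (hpp p hp h) A hA).2 σ hσ).1]
    congr 1
    apply Subtype.ext
    rw [hal p hp (hpN p h), hy, ha p hp (hpN p h)]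
  · intro p hp h A hA σ hσ y hy
    rw [((hr p hp (hpp p hp h) A hA).2 σ hσ).2, hφx p hp h]
    congr 1
    apply Subtype.ext
    rw [hee, hy]

end Fermat.Agent.S48
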